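import Fermat.Agent.CharacteristicVectors.LowRank

/-!
# Counting vectors and characteristic vectors of given value

The counts are invariant under isometry; the sum of `E₈` and `ℤᵐ` has `2 ^ m` characteristic
vectors of least value `m`, `2 m` vectors of value one and `240 + 2 m (m - 1)` of value two.
-/

set_option autoImplicit false
set_option linter.unusedSectionVars false

noncomputable section

namespace FA.LongShadows

open Complex Matrix
open IndefiniteUnimodular (val Iso Characteristic EvenForm dsum line)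
open CharacteristicVectors (PosUnimodular latTheta)
open scoped Real

variable {ι κ : Type*} [Fintype ι] [DecidableEq ι] [Fintype κ] [DecidableEq κ]

/-- The number of vectors of a given value. -/
def levelCount (A : Matrix ι ι ℤ) (k : ℤ) : ℕ := Nat.card {v : ι → ℤ // val A v = k}

/-- The number of characteristic vectors of a given value. -/
def charCount (A : Matrix ι ι ℤ) (k : ℤ) : ℕ :=
  Nat.card {c : ι → ℤ // Characteristic A c ∧ val A c = k}

theorem exists_vectorEquiv {A : Matrix ι ι ℤ} {B : Matrix κ κ ℤ} (h : Iso A B) :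
    ∃ e : (κ → ℤ) ≃ (ι → ℤ),
      (∀ y, val A (e y) = val B y) ∧ ∀ y, Characteristic A (e y) ↔ Characteristic B y := by
  obtain ⟨P, Q, h1, h2, rfl⟩ := h
  refine ⟨{ toFun := fun y => P *ᵥ y
            invFun := fun x => Q *ᵥ x
            left_inv := fun y => by simp [Matrix.mulVec_mulVec, h2]
            right_inv := fun x => by simp [Matrix.mulVec_mulVec, h1] },
    fun y => (IndefiniteUnimodular.val_congr P y).symm, fun y => ?_⟩
  have e : ∀ w, y ⬝ᵥ ((Pᵀ * A * P) *ᵥ w) = (P *ᵥ y) ⬝ᵥ (A *ᵥ (P *ᵥ w)) := fun w => by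
    rw [← Matrix.mulVec_mulVec, ← Matrix.mulVec_mulVec, dotProduct_transpose_mulVec,
      dotProduct_comm]
  refine ⟨fun h w => ?_, fun h x => ?_⟩
  · rw [e, IndefiniteUnimodular.val_congr]
    exact h _
  · have := h (Q *ᵥ x)
    rwa [e, IndefiniteUnimodular.val_congr, Matrix.mulVec_mulVec x P Q, h1,
      Matrix.one_mulVec] at this

theorem levelCount_congr {A : Matrix ι ι ℤ} {B : Matrix κ κ ℤ} (h : Iso A B) (k : ℤ) :
    levelCount A k = levelCount B k := by
  obtain ⟨e, he, -⟩ := exists_vectorEquiv h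
  exact (Nat.card_congr (e.subtypeEquiv fun y => by rw [he])).symm

theorem charCount_congr {A : Matrix ι ι ℤ} {B : Matrix κ κ ℤ} (h : Iso A B) (k : ℤ) :
    charCount A k = charCount B k := by
  obtain ⟨e, he, hc⟩ := exists_vectorEquiv h
  exact (Nat.card_congr (e.subtypeEquiv fun y => by rw [he, hc])).symm

theorem latTheta_congr {A : Matrix ι ι ℤ} {B : Matrix κ κ ℤ} (h : Iso A B) (z : ℂ) :
    latTheta A z = latTheta B z := by
  obtain ⟨e, he, -⟩ := exists_vectorEquiv h
  rw [latTheta, latTheta, ← e.tsum_eq]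
  simp only [he]

theorem nonneg_of_pos {A : Matrix ι ι ℤ} (hA : PosUnimodular A) (x : ι → ℤ) : 0 ≤ val A x :=
  hA.val_nonneg x

theorem eq_zero_of_val_zero {A : Matrix ι ι ℤ} (hA : PosUnimodular A) {x : ι → ℤ}
    (h : val A x = 0) : x = 0 := by
  by_contra hne
  exact (hA.2 x hne).ne' h

theorem summable_latTerm {A : Matrix ι ι ℤ} (hA : PosUnimodular A) {z : ℂ} (hz : 0 < z.im) :
    Summable fun v : ι → ℤ => cexp (π * I * val A v * z) :=
  (CharacteristicVectors.summable_gramTerm hA.posDef hz).congr fun v => by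
    rw [CharacteristicVectors.gramVal_toReal, ofReal_intCast]

theorem posUnimodular_dsum {A : Matrix ι ι ℤ} {B : Matrix κ κ ℤ} (hA : PosUnimodular A)
    (hB : PosUnimodular B) : PosUnimodular (dsum A B) := by
  refine ⟨hA.1.dsum hB.1, fun z hz => ?_⟩
  rw [IndefiniteUnimodular.val_dsum']
  refine lt_of_le_of_ne (add_nonneg (hA.val_nonneg _) (hB.val_nonneg _)) fun h => hz ?_
  obtain ⟨h1, h2⟩ := (add_eq_zero_iff_of_nonneg (hA.val_nonneg _) (hB.val_nonneg _)).1 h.symm
  rw [← Sum.elim_comp_inl_inr z, eq_zero_of_val_zero hA h1, eq_zero_of_val_zero hB h2]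
  exact Sum.elim_zero_zero

theorem posUnimodular_of_dsum {A : Matrix ι ι ℤ} {B : Matrix κ κ ℤ}
    (h : PosUnimodular (dsum A B)) : PosUnimodular A ∧ PosUnimodular B := by
  obtain ⟨h1, h2⟩ := IndefiniteUnimodular.unimodular_of_dsum h.1
  refine ⟨⟨h1, fun x hx => ?_⟩, ⟨h2, fun y hy => ?_⟩⟩
  · have := h.2 (Sum.elim x 0) fun e => hx (funext fun i => congrFun e (Sum.inl i))
    simpa [IndefiniteUnimodular.val_dsum] using this
  · have := h.2 (Sum.elim 0 y) fun e => hy (funext fun i => congrFun e (Sum.inr i))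
    simpa [IndefiniteUnimodular.val_dsum] using this

theorem posUnimodular_e8 : PosUnimodular FA.Summary.e8Gram := by
  refine ⟨IndefiniteUnimodular.unimodular_e8, fun x hx => ?_⟩
  have := FA.Summary.e8_unimodular.2.2.1 x hx
  simpa only [val, dotProduct, Matrix.mulVec, Finset.mul_sum, ← mul_assoc] using this

theorem latTheta_dsum {A : Matrix ι ι ℤ} {B : Matrix κ κ ℤ} (hA : PosUnimodular A)
    (hB : PosUnimodular B) {z : ℂ} (hz : 0 < z.im) :
    latTheta (dsum A B) z = latTheta A z * latTheta B z := by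
  rw [latTheta, latTheta, latTheta, ← (Equiv.sumArrowEquivProdArrow ι κ ℤ).symm.tsum_eq,
    tsum_mul_tsum_of_summable_norm (summable_latTerm hA hz).norm (summable_latTerm hB hz).norm]
  refine tsum_congr fun p => ?_
  rw [← Complex.exp_add, IndefiniteUnimodular.val_dsum']
  push_cast
  simp [Equiv.sumArrowEquivProdArrow, Function.comp_def]
  ring_nf

theorem finite_level {A : Matrix ι ι ℤ} (hA : PosUnimodular A) (k : ℤ) :
    Finite {v : ι → ℤ // val A v = k} := by
  obtain ⟨B, hB⟩ := IndefiniteUnimodular.exists_iso_fin A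
  obtain ⟨e, he, -⟩ := exists_vectorEquiv hB
  have : Finite {v // val B v = k} :=
    (CharacteristicVectors.finite_val_eq (hA.iso hB) k).to_subtype
  exact Finite.of_equiv {v // val B v = k} (e.subtypeEquiv fun y => by rw [he])

theorem levelCount_dsum_one {A : Matrix ι ι ℤ} {B : Matrix κ κ ℤ} (hA : PosUnimodular A)
    (hB : PosUnimodular B) : levelCount (dsum A B) 1 = levelCount A 1 + levelCount B 1 := by
  have := finite_level hA 1
  have := finite_level hB 1
  rw [levelCount, levelCount, levelCount, ← Nat.card_sum]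
  refine (Nat.card_congr (Equiv.ofBijective
    (Sum.elim (fun x => ⟨Sum.elim x.1 0, by simp [IndefiniteUnimodular.val_dsum, x.2]⟩)
      fun y => ⟨Sum.elim 0 y.1, by simp [IndefiniteUnimodular.val_dsum, y.2]⟩) ⟨?_, ?_⟩)).symm
  · rintro (x | x) (y | y) h <;>
      simp only [Sum.elim_inl, Sum.elim_inr, Subtype.mk.injEq] at h
    · exact congrArg _ (Subtype.ext (funext fun i => congrFun h (Sum.inl i)))
    · have e : x.1 = 0 := funext fun i => congrFun h (Sum.inl i)
      simpa [e] using x.2
    · have e : x.1 = 0 := funext fun i => congrFun h (Sum.inr i)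
      simpa [e] using x.2
    · exact congrArg _ (Subtype.ext (funext fun i => congrFun h (Sum.inr i)))
  · rintro ⟨w, hw⟩
    obtain ⟨x, y, rfl⟩ : ∃ x y, w = Sum.elim x y := ⟨_, _, (Sum.elim_comp_inl_inr w).symm⟩
    rw [IndefiniteUnimodular.val_dsum] at hw
    have hx := hA.val_nonneg x
    have hy := hB.val_nonneg y
    rcases eq_or_ne (val A x) 0 with h0 | h0
    · obtain rfl := eq_zero_of_val_zero hA h0
      exact ⟨Sum.inr ⟨y, by omega⟩, rfl⟩
    · obtain rfl : y = 0 := eq_zero_of_val_zero hB (by omega)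
      exact ⟨Sum.inl ⟨x, by omega⟩, rfl⟩

theorem levelCount_dsum_two {A : Matrix ι ι ℤ} {B : Matrix κ κ ℤ} (hA : PosUnimodular A)
    (hB : PosUnimodular B) : levelCount (dsum A B) 2 =
      levelCount A 2 + levelCount B 2 + levelCount A 1 * levelCount B 1 := by
  have := finite_level hA 1
  have := finite_level hB 1
  have := finite_level hA 2
  have := finite_level hB 2
  rw [levelCount, levelCount, levelCount, levelCount, levelCount, ← Nat.card_sum,
    ← Nat.card_prod, ← Nat.card_sum]
  refine (Nat.card_congr (Equiv.ofBijective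
    (Sum.elim (Sum.elim (fun x => ⟨Sum.elim x.1 0, by simp [IndefiniteUnimodular.val_dsum, x.2]⟩)
      fun y => ⟨Sum.elim 0 y.1, by simp [IndefiniteUnimodular.val_dsum, y.2]⟩)
      fun p => ⟨Sum.elim p.1.1 p.2.1, by simp [IndefiniteUnimodular.val_dsum, p.1.2, p.2.2]⟩)
    ⟨?_, ?_⟩)).symm
  · rintro ((x | x) | p) ((y | y) | q) h <;>
      simp only [Sum.elim_inl, Sum.elim_inr, Subtype.mk.injEq] at h <;>
      have hl := congrArg (fun w => val A (w ∘ Sum.inl)) h <;>
      have hr := congrArg (fun w => val B (w ∘ Sum.inr)) h <;>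
      simp only [Sum.elim_comp_inl, Sum.elim_comp_inr] at hl hr
    · exact congrArg _ (congrArg _ (Subtype.ext (funext fun i => congrFun h (Sum.inl i))))
    · simp [x.2] at hl
    · simp [q.2.2] at hr
    · simp [x.2] at hr
    · exact congrArg _ (congrArg _ (Subtype.ext (funext fun i => congrFun h (Sum.inr i))))
    · simp [q.1.2] at hl
    · simp [p.2.2] at hr
    · simp [p.1.2] at hl
    · exact congrArg _ (Prod.ext (Subtype.ext (funext fun i => congrFun h (Sum.inl i)))
        (Subtype.ext (funext fun i => congrFun h (Sum.inr i))))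
  · rintro ⟨w, hw⟩
    obtain ⟨x, y, rfl⟩ : ∃ x y, w = Sum.elim x y := ⟨_, _, (Sum.elim_comp_inl_inr w).symm⟩
    rw [IndefiniteUnimodular.val_dsum] at hw
    have hx := hA.val_nonneg x
    have hy := hB.val_nonneg y
    rcases eq_or_ne (val A x) 0 with h0 | h0
    · obtain rfl := eq_zero_of_val_zero hA h0
      exact ⟨Sum.inl (Sum.inr ⟨y, by omega⟩), rfl⟩
    rcases eq_or_ne (val B y) 0 with h1 | h1
    · obtain rfl := eq_zero_of_val_zero hB h1
      exact ⟨Sum.inl (Sum.inl ⟨x, by omega⟩), rfl⟩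
    · exact ⟨Sum.inr (⟨x, by omega⟩, ⟨y, by omega⟩), rfl⟩

theorem iso_one_succ (m : ℕ) : Iso (1 : Matrix (Fin (m + 1)) (Fin (m + 1)) ℤ)
    (dsum (1 : Matrix (Fin 1) (Fin 1) ℤ) (1 : Matrix (Fin m) (Fin m) ℤ)) :=
  IndefiniteUnimodular.iso_submatrix' _ _ (IndefiniteUnimodular.oneSum m) fun i j => by
    rw [dsum, fromBlocks_one, Matrix.one_apply, Matrix.one_apply]
    simp [(IndefiniteUnimodular.oneSum m).injective.eq_iff]

theorem levelCount_single_one : levelCount (1 : Matrix (Fin 1) (Fin 1) ℤ) 1 = 2 ∧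
    levelCount (1 : Matrix (Fin 1) (Fin 1) ℤ) 2 = 0 := by
  refine ⟨?_, ?_⟩
  · rw [levelCount, Nat.card_congr ((Equiv.funUnique (Fin 1) ℤ).subtypeEquiv
      (q := fun k : ℤ => k ∈ ({1, -1} : Finset ℤ)) fun v => ?_), Nat.card_eq_fintype_card,
      Fintype.card_coe]
    · rfl
    · simp [CharacteristicVectors.val_one, sq_eq_one_iff]
  · rw [levelCount, Nat.card_eq_zero]
    refine .inl ⟨fun v => ?_⟩
    have h := v.2
    rw [CharacteristicVectors.val_one, Fin.sum_univ_one] at h
    have h1 : v.1 0 ≤ 1 ∧ -1 ≤ v.1 0 := ⟨by nlinarith, by nlinarith⟩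
    obtain e | e | e : v.1 0 = -1 ∨ v.1 0 = 0 ∨ v.1 0 = 1 := by omega
    all_goals simp [e] at h

/-- The sum of squares. -/
theorem levelCount_one (m : ℕ) : levelCount (1 : Matrix (Fin m) (Fin m) ℤ) 1 = 2 * m ∧
    levelCount (1 : Matrix (Fin m) (Fin m) ℤ) 2 + 2 * m = 2 * m * m := by
  induction m with
  | zero =>
    refine ⟨?_, ?_⟩
    · rw [levelCount, Nat.card_eq_zero]
      exact .inl ⟨fun v => by simpa [val, dotProduct] using v.2⟩
    · rw [levelCount, Nat.card_eq_zero.2 (.inl ⟨fun v => by simpa [val, dotProduct] using v.2⟩)]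
  | succ m ih =>
    have h1 := CharacteristicVectors.posUnimodular_one (n := 1)
    have hm := CharacteristicVectors.posUnimodular_one (n := m)
    rw [levelCount_congr (iso_one_succ m), levelCount_congr (iso_one_succ m),
      levelCount_dsum_one h1 hm, levelCount_dsum_two h1 hm, levelCount_single_one.1,
      levelCount_single_one.2, ih.1]
    exact ⟨by ring, by linarith [ih.2]⟩

theorem levelCount_e8 :
    levelCount FA.Summary.e8Gram 1 = 0 ∧ levelCount FA.Summary.e8Gram 2 = 240 := by
  refine ⟨?_, ?_⟩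
  · rw [levelCount, Nat.card_eq_zero]
    refine .inl ⟨fun v => ?_⟩
    obtain ⟨t, ht⟩ := IndefiniteUnimodular.evenForm_e8 v.1
    have := v.2
    omega
  · have h := FA.Summary.e8_representations 1 one_pos
    rw [ArithmeticFunction.sigma_one, Nat.cast_one, mul_one, mul_one] at h
    rw [levelCount, ← h]
    refine Nat.card_congr (Equiv.subtypeEquivRight fun v => ?_)
    simp only [val, dotProduct, Matrix.mulVec, Finset.mul_sum, ← mul_assoc]

/-- `E₈ ⊕ ℤᵐ`. -/
def model (m : ℕ) : Matrix (Fin 8 ⊕ Fin m) (Fin 8 ⊕ Fin m) ℤ :=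
  dsum FA.Summary.e8Gram (1 : Matrix (Fin m) (Fin m) ℤ)

theorem posUnimodular_model (m : ℕ) : PosUnimodular (model m) :=
  posUnimodular_dsum posUnimodular_e8 CharacteristicVectors.posUnimodular_one

theorem levelCount_model (m : ℕ) :
    levelCount (model m) 1 = 2 * m ∧ levelCount (model m) 2 + 2 * m = 240 + 2 * m * m := by
  have hm := CharacteristicVectors.posUnimodular_one (n := m)
  rw [model, levelCount_dsum_one posUnimodular_e8 hm, levelCount_dsum_two posUnimodular_e8 hm,
    levelCount_e8.1, levelCount_e8.2, (levelCount_one m).1]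
  exact ⟨by ring, by linarith [(levelCount_one m).2]⟩

theorem odd_of_characteristic_model {m : ℕ} {u : Fin 8 → ℤ} {y : Fin m → ℤ}
    (h : Characteristic (model m) (Sum.elim u y)) (i : Fin m) : y i ≠ 0 := fun e => by
  have := h (Sum.elim 0 (Pi.single i 1))
  rw [model, IndefiniteUnimodular.val_dsum, CharacteristicVectors.val_one] at this
  simp [dsum, Matrix.mulVec, dotProduct, Matrix.one_apply, Pi.single_apply, e] at this

theorem le_val_model {m : ℕ} {c : Fin 8 ⊕ Fin m → ℤ} (h : Characteristic (model m) c) :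
    (m : ℤ) ≤ val (model m) c := by
  obtain ⟨u, y, rfl⟩ : ∃ u y, c = Sum.elim u y := ⟨_, _, (Sum.elim_comp_inl_inr c).symm⟩
  rw [model, IndefiniteUnimodular.val_dsum, CharacteristicVectors.val_one]
  have hu := posUnimodular_e8.val_nonneg u
  have hy : ∑ _i : Fin m, (1 : ℤ) ≤ ∑ i, y i ^ 2 := Finset.sum_le_sum fun i _ => by
    nlinarith [sq_pos_of_ne_zero (odd_of_characteristic_model h i)]
  simp at hy
  linarith

theorem characteristic_model {m : ℕ} (y : Fin m → ℤ) (hy : ∀ i, y i = 1 ∨ y i = -1) :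
    Characteristic (model m) (Sum.elim 0 y) := fun z => by
  obtain ⟨u, w, rfl⟩ : ∃ u w, z = Sum.elim u w := ⟨_, _, (Sum.elim_comp_inl_inr z).symm⟩
  rw [model, IndefiniteUnimodular.val_dsum, CharacteristicVectors.val_one,
    show Sum.elim (0 : Fin 8 → ℤ) y ⬝ᵥ (dsum FA.Summary.e8Gram (1 : Matrix (Fin m) (Fin m) ℤ) *ᵥ
      Sum.elim u w) = ∑ i, y i * w i by
        rw [dsum, fromBlocks_mulVec]
        simp [dotProduct],
    show ∑ i, y i * w i - (val FA.Summary.e8Gram u + ∑ i, w i ^ 2) =
      ∑ i, (y i * w i - w i ^ 2) - val FA.Summary.e8Gram u by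
        rw [Finset.sum_sub_distrib]; ring]
  refine dvd_sub (Finset.dvd_sum fun i _ => ?_)
    (even_iff_two_dvd.1 (IndefiniteUnimodular.evenForm_e8 u))
  rcases hy i with e | e
  · rw [e, show 1 * w i - w i ^ 2 = -(w i * (w i - 1)) by ring]
    exact dvd_neg.2 (even_iff_two_dvd.1 (Int.even_mul_pred_self _))
  · rw [e, show -1 * w i - w i ^ 2 = -(w i * (w i + 1)) by ring]
    exact dvd_neg.2 (even_iff_two_dvd.1 (Int.even_mul_succ_self _))

theorem charCount_model (m : ℕ) : charCount (model m) m = 2 ^ m := by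
  obtain ⟨s, hs⟩ : ∃ s : Bool → ℤ, ∀ b, s b = if b then 1 else -1 := ⟨_, fun _ => rfl⟩
  have hs1 : ∀ b, s b = 1 ∨ s b = -1 := fun b => by cases b <;> simp [hs]
  rw [charCount, show 2 ^ m = Nat.card (Fin m → Bool) by simp]
  have hval : ∀ b : Fin m → Bool, val (model m) (Sum.elim 0 fun i => s (b i)) = m := fun b => by
    rw [model, IndefiniteUnimodular.val_dsum, CharacteristicVectors.val_one]
    rw [Finset.sum_congr rfl fun i _ =>
      show s (b i) ^ 2 = 1 by rcases hs1 (b i) with e | e <;> simp [e]]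
    simp
  refine (Nat.card_congr (Equiv.ofBijective (fun b => ⟨Sum.elim 0 fun i => s (b i),
    characteristic_model _ fun i => hs1 _, hval b⟩) ⟨fun a b h => ?_, fun c => ?_⟩)).symm
  · funext i
    have := congrFun (congrArg Subtype.val h) (Sum.inr i)
    simp only [Sum.elim_inr, hs] at this
    cases ha : a i <;> cases hb : b i <;> simp [ha, hb] at this ⊢
  · obtain ⟨c, hc, hv⟩ := c
    obtain ⟨u, y, rfl⟩ : ∃ u y, c = Sum.elim u y := ⟨_, _, (Sum.elim_comp_inl_inr c).symm⟩
    rw [model, IndefiniteUnimodular.val_dsum, CharacteristicVectors.val_one] at hv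
    have hu := posUnimodular_e8.val_nonneg u
    have hy : ∀ i, 0 ≤ y i ^ 2 - 1 := fun i => by
      nlinarith [sq_pos_of_ne_zero (odd_of_characteristic_model hc i)]
    have hsum : ∑ i, (y i ^ 2 - 1) = -val FA.Summary.e8Gram u := by
      rw [Finset.sum_sub_distrib]
      simp
      linarith
    have h0 : val FA.Summary.e8Gram u = 0 := le_antisymm
      (by linarith [Finset.sum_nonneg fun i (_ : i ∈ Finset.univ) => hy i]) hu
    obtain rfl := eq_zero_of_val_zero posUnimodular_e8 h0
    rw [h0, neg_zero, Finset.sum_eq_zero_iff_of_nonneg fun i _ => hy i] at hsum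
    refine ⟨fun i => decide (y i = 1), Subtype.ext (funext fun k => ?_)⟩
    rcases k with k | k
    · rfl
    · have hk := hsum k (Finset.mem_univ k)
      rw [sub_eq_zero, sq_eq_one_iff] at hk
      rcases hk with e | e <;> simp [hs, e]

end FA.LongShadows

end
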