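import Fermat.Agent.LongShadows.Theta

/-!
# The shape of a lattice with a long shadow

It is `ℤᵏ ⊕ L₀` with `L₀` free of vectors of value one, and such an `L₀` of rank `r ≥ 8` has
exactly `2 r (23 - r)` vectors of value two and `r 2 ^ (r - 11)` shortest characteristic vectors;
so `r ≤ 23`, and `r = 9, 10, 11` do not occur.
-/

set_option autoImplicit false
set_option linter.unusedSectionVars false

noncomputable section

namespace FA.LongShadows

open Complex Matrix
open IndefiniteUnimodular (val Characteristic Iso dsum line)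
open CharacteristicVectors (PosUnimodular latTheta)

variable {n : ℕ} {A : Matrix (Fin n) (Fin n) ℤ}

theorem exists_model_fin {m : ℕ} (hn : n = 8 + m) :
    ∃ B : Matrix (Fin n) (Fin n) ℤ, Iso (model m) B ∧ PosUnimodular B ∧ LongShadow B ∧
      shortCount B = 2 ^ m := by
  obtain ⟨B, hB⟩ := IndefiniteUnimodular.iso_fin_of_card (A := model m) (m := n) (by simp [hn])
  refine ⟨B, hB, (posUnimodular_model m).iso hB, fun c hc => ?_, ?_⟩
  · obtain ⟨e, he, hec⟩ := exists_vectorEquiv hB
    have := le_val_model ((hec c).2 hc)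
    rw [he] at this
    omega
  · rw [shortCount, show (n : ℤ) - 8 = (m : ℤ) by omega, ← charCount_congr hB, charCount_model]

/-- **The theta series of a lattice with a long shadow.** -/
theorem theta_long {m : ℕ} (hn : n = 8 + m) (hA : PosUnimodular A) (hl : LongShadow A) {z : ℂ}
    (hz : 0 < z.im) :
    2 ^ m * latTheta A z = ((2 : ℂ) ^ m - shortCount A) * jacobiTheta z ^ n +
      shortCount A * (latTheta FA.Summary.e8Gram z * jacobiTheta z ^ m) := by
  obtain ⟨B, hB, hBp, hBl, hBc⟩ := exists_model_fin hn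
  have h := theta_relation hA hBp hl hBl hz
  rw [hBc, ← latTheta_congr hB, model, latTheta_dsum posUnimodular_e8
    CharacteristicVectors.posUnimodular_one hz, CharacteristicVectors.latTheta_one hz,
    CharacteristicVectors.latTheta_one hz] at h
  push_cast at h
  linear_combination h

/-- The numbers of vectors of value one and two. -/
theorem counts_long {m : ℕ} (hn : n = 8 + m) (hA : PosUnimodular A) (hl : LongShadow A) :
    2 ^ m * (levelCount A 1 : ℤ) = 2 ^ m * (2 * n) - 16 * shortCount A ∧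
      2 ^ m * (levelCount A 2 : ℤ) = (2 ^ m - (shortCount A : ℤ)) * (2 * n * ((n : ℤ) - 1)) +
        shortCount A * (240 + 2 * m * ((m : ℤ) - 1)) := by
  obtain ⟨B, hB, hBp, hBl, hBc⟩ := exists_model_fin hn
  have h := counts_of_theta hA (CharacteristicVectors.posUnimodular_one (n := n)) hBp
    (a := 2 ^ m) (b := (shortCount A : ℂ) - 2 ^ m) (c := -(shortCount A : ℂ)) fun z hz => by
      have := theta_relation hA hBp hl hBl hz
      rw [hBc] at this
      push_cast at this
      linear_combination this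
  have key : ∀ k : ℕ, 2 ^ m * (levelCount A k : ℤ) = (2 ^ m - (shortCount A : ℤ)) *
      levelCount (1 : Matrix (Fin n) (Fin n) ℤ) k + shortCount A * levelCount (model m) k := by
    intro k
    have hk := h k
    rw [← levelCount_congr hB] at hk
    have : ((2 ^ m * (levelCount A k : ℤ) : ℤ) : ℂ) = (((2 ^ m - (shortCount A : ℤ)) *
        levelCount (1 : Matrix (Fin n) (Fin n) ℤ) k +
          shortCount A * levelCount (model m) k : ℤ) : ℂ) := by
      push_cast
      linear_combination hk
    exact_mod_cast this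
  obtain ⟨h1, h2⟩ := levelCount_one n
  obtain ⟨g1, g2⟩ := levelCount_model m
  have e1 := key 1
  have e2 := key 2
  rw [Nat.cast_one, h1, g1] at e1
  push_cast at e1
  refine ⟨?_, ?_⟩
  · rw [e1, show (m : ℤ) = (n : ℤ) - 8 by omega]
    ring
  · have h2' : (levelCount (1 : Matrix (Fin n) (Fin n) ℤ) 2 : ℤ) = 2 * n * ((n : ℤ) - 1) := by
      have : ((levelCount (1 : Matrix (Fin n) (Fin n) ℤ) 2 + 2 * n : ℕ) : ℤ) = (2 * n * n : ℕ) := by
        rw [h2]
      push_cast at this
      linarith
    have g2' : (levelCount (model m) 2 : ℤ) = 240 + 2 * m * ((m : ℤ) - 1) := by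
      have : ((levelCount (model m) 2 + 2 * m : ℕ) : ℤ) = (240 + 2 * m * m : ℕ) := by rw [g2]
      push_cast at this
      linarith
    rw [Nat.cast_ofNat, h2', g2'] at e2
    exact e2

/-- Without vectors of value one. -/
theorem reduced_rank (hA : PosUnimodular A) (h1 : levelCount A 1 = 0) : n = 0 ∨ 8 ≤ n := by
  by_contra h
  push Not at h
  have hiso := CharacteristicVectors.iso_one_of_rank_le_seven (by omega) hA
  rw [levelCount_congr hiso, (levelCount_one n).1] at h1
  omega

theorem reduced_counts (h8 : 8 ≤ n) (hA : PosUnimodular A) (hl : LongShadow A)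
    (h1 : levelCount A 1 = 0) :
    8 * shortCount A = n * 2 ^ (n - 8) ∧
      (levelCount A 2 : ℤ) = 2 * n * (23 - (n : ℤ)) ∧ n ≤ 23 := by
  obtain ⟨e1, e2⟩ := counts_long (m := n - 8) (by omega) hA hl
  rw [h1, Nat.cast_zero, mul_zero] at e1
  have hN : 8 * (shortCount A : ℤ) = n * 2 ^ (n - 8) := by linarith
  have hm : ((n - 8 : ℕ) : ℤ) = (n : ℤ) - 8 := by omega
  rw [hm] at e2
  have h2 : (levelCount A 2 : ℤ) = 2 * n * (23 - (n : ℤ)) := by
    refine mul_left_cancel₀ (mul_ne_zero (two_ne_zero (α := ℤ))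
      (mul_ne_zero (show (4 : ℤ) ≠ 0 by norm_num) (pow_ne_zero (n - 8) (two_ne_zero (α := ℤ))))) ?_
    linear_combination 8 * e2 + (-(2 * (n : ℤ) * ((n : ℤ) - 1)) + 240 +
      2 * ((n : ℤ) - 8) * ((n : ℤ) - 8 - 1)) * hN
  refine ⟨by exact_mod_cast hN, h2, ?_⟩
  by_contra h
  push Not at h
  have : (0 : ℤ) ≤ 2 * n * (23 - (n : ℤ)) := h2 ▸ Int.natCast_nonneg _
  nlinarith

theorem iso_one_add (k r : ℕ) :
    Iso (dsum (1 : Matrix (Fin k) (Fin k) ℤ) (1 : Matrix (Fin r) (Fin r) ℤ))
      (1 : Matrix (Fin (k + r)) (Fin (k + r)) ℤ) := by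
  rw [dsum, fromBlocks_one]
  have h := IndefiniteUnimodular.iso_submatrix (1 : Matrix (Fin k ⊕ Fin r) (Fin k ⊕ Fin r) ℤ)
    finSumFinEquiv.symm
  rwa [submatrix_one_equiv] at h

/-- The decomposition `ℤᵏ ⊕ L₀`. -/
theorem exists_reduced : ∀ {n : ℕ} {A : Matrix (Fin n) (Fin n) ℤ}, PosUnimodular A →
    LongShadow A → ∃ (k r : ℕ) (L₀ : Matrix (Fin r) (Fin r) ℤ), k + r = n ∧ PosUnimodular L₀ ∧
      LongShadow L₀ ∧ levelCount L₀ 1 = 0 ∧
        Iso A (dsum (1 : Matrix (Fin k) (Fin k) ℤ) L₀) := by
  intro n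
  induction n with
  | zero =>
    intro A hA hl
    refine ⟨0, 0, A, rfl, hA, hl, ?_, IndefiniteUnimodular.iso_submatrix' _ _ (Equiv.sumEmpty _ _
      |>.trans (Equiv.refl _)) fun i => i.elim (fun i => i.elim0) fun i => i.elim0⟩
    rw [levelCount, Nat.card_eq_zero]
    exact .inl ⟨fun v => by simpa [val, dotProduct] using v.2⟩
  | succ n ih =>
    intro A hA hl
    by_cases h1 : levelCount A 1 = 0
    · refine ⟨0, n + 1, A, Nat.zero_add _, hA, hl, h1, ?_⟩
      exact (IndefiniteUnimodular.iso_submatrix' A _ (Equiv.emptySum (Fin 0) (Fin (n + 1)))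
        fun i j => by
          rcases i with i | i
          · exact i.elim0
          rcases j with j | j
          · exact j.elim0
          simp [dsum])
    obtain ⟨⟨w, hw⟩⟩ := (Nat.card_ne_zero.1 h1).1
    have hprim : Reduction.Primitive w := fun g hg => by
      refine isUnit_of_dvd_one ?_
      rw [← hw]
      show g ∣ ∑ i, w i * (A *ᵥ w) i
      exact Finset.dvd_sum fun i _ => (hg i).mul_right _
    obtain ⟨S, hS, hiso⟩ := IndefiniteUnimodular.exists_split_line hA.1 hprim (.inl rfl) hw
    have hline : line 1 = (1 : Matrix (Fin 1) (Fin 1) ℤ) := diagonal_one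
    rw [hline] at hiso
    have hSp := (posUnimodular_of_dsum (hA.iso hiso)).2
    have hSl : LongShadow S := fun c hc => by
      obtain ⟨e, he, hec⟩ := exists_vectorEquiv hiso
      have hc' : Characteristic (dsum (1 : Matrix (Fin 1) (Fin 1) ℤ) S) (Sum.elim ![1] c) := by
        intro x
        obtain ⟨u, y, rfl⟩ : ∃ u y, x = Sum.elim u y := ⟨_, _, (Sum.elim_comp_inl_inr x).symm⟩
        rw [IndefiniteUnimodular.val_dsum, CharacteristicVectors.val_one,
          show Sum.elim ![(1 : ℤ)] c ⬝ᵥ (dsum (1 : Matrix (Fin 1) (Fin 1) ℤ) S *ᵥ Sum.elim u y) =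
            u 0 + c ⬝ᵥ (S *ᵥ y) by simp [dsum, fromBlocks_mulVec, dotProduct],
          Fin.sum_univ_one, show u 0 + c ⬝ᵥ (S *ᵥ y) - (u 0 ^ 2 + val S y) =
            -(u 0 * (u 0 - 1)) + (c ⬝ᵥ (S *ᵥ y) - val S y) by ring]
        exact dvd_add (dvd_neg.2 (even_iff_two_dvd.1 (Int.even_mul_pred_self _))) (hc y)
      have := hl _ ((hec _).2 hc')
      rw [he, IndefiniteUnimodular.val_dsum, CharacteristicVectors.val_one] at this
      simp at this
      omega
    obtain ⟨k, r, L₀, hkr, hL, hLl, hL1, hSiso⟩ := ih hSp hSl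
    refine ⟨1 + k, r, L₀, by omega, hL, hLl, hL1, hiso.trans ?_⟩
    exact ((Iso.refl _).dsum hSiso).trans ((IndefiniteUnimodular.iso_dsum_assoc _ _ _).symm.trans
      ((iso_one_add 1 k).dsum (Iso.refl L₀)))

theorem shortCount_even (hA : PosUnimodular A) (hn8 : n ≠ 8) : Even (shortCount A) := by
  have heven : Even (shortCount A) := by
    classical
    have hfin : {c | Characteristic A c ∧ val A c = (n : ℤ) - 8}.Finite :=
      (CharacteristicVectors.finite_val_eq hA ((n : ℤ) - 8)).subset fun c hc => hc.2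
    rw [shortCount, charCount, show Nat.card {c // Characteristic A c ∧ val A c = (n : ℤ) - 8} =
      hfin.toFinset.card from Nat.card_eq_card_finite_toFinset hfin]
    have hmem : ∀ c ∈ hfin.toFinset, -c ∈ hfin.toFinset := fun c hc => by
      rw [Set.Finite.mem_toFinset] at hc ⊢
      refine ⟨fun x => ?_, by simpa [val, Matrix.mulVec_neg] using hc.2⟩
      have := dvd_sub (hc.1 x) (dvd_mul_right 2 (c ⬝ᵥ (A *ᵥ x)))
      rw [neg_dotProduct, show -(c ⬝ᵥ (A *ᵥ x)) - val A x =
        c ⬝ᵥ (A *ᵥ x) - val A x - 2 * (c ⬝ᵥ (A *ᵥ x)) by ring]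
      exact this
    have := Finset.sum_involution (f := fun _ : Fin n → ℤ => (1 : ZMod 2))
      (s := hfin.toFinset) (fun c _ => -c) (fun _ _ => CharTwo.add_self_eq_zero 1)
      (fun c hc _ h => ?_) hmem fun c _ => neg_neg c
    · rw [Finset.sum_const, nsmul_one] at this
      exact (ZMod.natCast_eq_zero_iff_even).1 this
    · rw [Set.Finite.mem_toFinset] at hc
      have : c = 0 := funext fun i => by
        have := congrFun h i
        simp only [Pi.neg_apply] at this
        show c i = 0
        omega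
      have hv := hc.2
      rw [this, IndefiniteUnimodular.val_zero] at hv
      omega
  exact heven

theorem rank_not_nine_ten_eleven (hA : PosUnimodular A) (hl : LongShadow A)
    (h1 : levelCount A 1 = 0) : n ≠ 9 ∧ n ≠ 10 ∧ n ≠ 11 := by
  refine ⟨?_, ?_, ?_⟩ <;> rintro rfl <;>
    have heven := shortCount_even hA (by norm_num) <;>
    obtain ⟨hN, -, -⟩ := reduced_counts (by norm_num) hA hl h1 <;>
    norm_num at hN <;> rw [even_iff_two_dvd] at heven <;> omega

theorem rank_le_eleven (hn : n ≤ 11) (hA : PosUnimodular A) :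
    Iso A (1 : Matrix (Fin n) (Fin n) ℤ) ∨
      ∃ m, n = 8 + m ∧ Iso A (model m) := by
  obtain ⟨k, r, L₀, hkr, hL, hLl, h1, hiso⟩ :=
    exists_reduced hA (longShadow_of_le_fifteen (by omega) hA)
  rcases reduced_rank hL h1 with rfl | h8
  · refine .inl (hiso.trans ?_)
    have e : L₀ = 1 := by ext i; exact i.elim0
    obtain rfl : k = n := by omega
    exact e ▸ iso_one_add k 0
  · obtain ⟨a, b, c⟩ := rank_not_nine_ten_eleven hL hLl h1
    obtain rfl : r = 8 := by omega
    refine .inr ⟨k, by omega, hiso.trans ((IndefiniteUnimodular.iso_dsum_comm _ _).trans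
      ((?_ : Iso L₀ FA.Summary.e8Gram).dsum (Iso.refl _)))⟩
    rcases CharacteristicVectors.rank_eight hL with h | h
    · rw [levelCount_congr h, (levelCount_one 8).1] at h1
      omega
    · exact h

end FA.LongShadows

end
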