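import Fermat.Agent.LongShadows.Counts

/-!
# The theta series of a lattice with a long shadow

If all characteristic values of `L` and `L'` are at least `n - 8`, a combination of their theta
series and `θⁿ` is bounded at both cusps of the theta group, so vanishes; hence so do the same
combinations of all the counting numbers.
-/

set_option autoImplicit false
set_option linter.unusedSectionVars false

noncomputable section

namespace FA.LongShadows

open Complex Matrix Filter
open UpperHalfPlane hiding I
open IndefiniteUnimodular (val Characteristic Iso)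
open CharacteristicVectors (PosUnimodular latTheta shadowTheta quot)
open scoped Real Topology

variable {n : ℕ} {A B : Matrix (Fin n) (Fin n) ℤ}

/-- All characteristic values are at least `n - 8`. -/
def LongShadow (A : Matrix (Fin n) (Fin n) ℤ) : Prop :=
  ∀ c, Characteristic A c → (n : ℤ) ≤ val A c + 8

/-- The number of characteristic vectors of value `n - 8`. -/
def shortCount (A : Matrix (Fin n) (Fin n) ℤ) : ℕ := charCount A ((n : ℤ) - 8)

theorem eight_dvd_val_sub (hA : PosUnimodular A) {c : Fin n → ℤ} (hc : Characteristic A c) :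
    8 ∣ val A c - (n : ℤ) := by
  have h := IndefiniteUnimodular.characteristic_mod_eight hA.1 hc
  rwa [hA.posIndex_eq, hA.negIndex_eq, Fintype.card_fin, Nat.cast_zero, sub_zero] at h

theorem longShadow_of_le_fifteen (hn : n ≤ 15) (hA : PosUnimodular A) : LongShadow A :=
  fun c hc => by
    have := eight_dvd_val_sub hA hc
    have := hA.val_nonneg c
    omega

theorem tendsto_shadow_tail (hA : PosUnimodular A) (hlong : LongShadow A) {c : Fin n → ℤ}
    (hc : Characteristic A c) :
    ∃ L : ℂ, Tendsto (fun z : ℍ => shadowTheta A c z * cexp (-(π * I * n / 4 * z)) -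
      (shortCount A : ℂ) * cexp (-(2 * π * I * z))) atImInfty (𝓝 L) := by
  have hchar := CharacteristicVectors.characteristic_two_smul_add hc
  obtain ⟨F, hF⟩ : ∃ F : (Fin n → ℤ) → (Fin n → ℤ), ∀ x, F x = (2 : ℤ) • x + c :=
    ⟨_, fun _ => rfl⟩
  have hinj : Function.Injective F := fun x y h => funext fun i => by
    rw [hF, hF] at h
    simpa using congrFun (add_right_cancel h) i
  have hfin : {x | val A (F x) = (n : ℤ) - 8}.Finite :=
    (CharacteristicVectors.finite_val_eq hA _).preimage hinj.injOn
  have hcount : Nat.card {x // val A (F x) = (n : ℤ) - 8} = shortCount A := by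
    refine Nat.card_congr (Equiv.ofBijective (fun x => ⟨F x.1, hF x.1 ▸ hchar x.1, x.2⟩)
      ⟨fun x y h => Subtype.ext (hinj (congrArg Subtype.val h)), fun w => ?_⟩)
    obtain ⟨t, c₀, h0, hw⟩ := CharacteristicVectors.mulVec_diag_congr hA.1 w.2.1
    obtain ⟨t', c₁, h1, hc'⟩ := CharacteristicVectors.mulVec_diag_congr hA.1 hc
    have e : c₀ = c₁ := mulVec_injective_of_det_ne_zero hA.1.2.ne_zero (h0.trans h1.symm)
    have e' : F (t - t') = w.1 := by
      rw [hF, hw, hc', e, smul_sub]
      abel
    exact ⟨⟨t - t', by rw [e']; exact w.2.2⟩, Subtype.ext e'⟩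
  have hnn : ∀ x : {x // x ∉ hfin.toFinset}, (0 : ℝ) ≤ ((val A (F x.1) : ℝ) - n) / 4 := fun x => by
    have h1 := eight_dvd_val_sub hA (hchar x.1)
    have h2 := hlong _ (hchar x.1)
    rw [← hF] at h1 h2
    have h3 : val A (F x.1) ≠ (n : ℤ) - 8 := by simpa using x.2
    have h4 : (n : ℤ) ≤ val A (F x.1) := by omega
    have : ((n : ℤ) : ℝ) ≤ val A (F x.1) := Int.cast_le.2 h4
    push_cast at this
    linarith
  have hs : Summable fun x : {x // x ∉ hfin.toFinset} =>
      Real.exp (-(π * (((val A (F x.1) : ℝ) - n) / 4))) := by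
    refine ((((CharacteristicVectors.summable_exp_val hA (a := 1 / 4) (by norm_num)).comp_injective
      hinj).comp_injective (i := Subtype.val) Subtype.val_injective).mul_left
        (Real.exp (π * n / 4))).congr fun x => ?_
    simp only [Function.comp_apply, ← Real.exp_add]
    ring_nf
  refine ⟨_, (CharacteristicVectors.tendsto_tsum_exp hnn hs).congr fun z => ?_⟩
  have hz : 0 < ((z : ℂ) / 4).im := by
    rw [Complex.div_ofNat_im]
    exact div_pos z.im_pos (by norm_num)
  have hsum : Summable fun x : Fin n → ℤ => cexp (π * I * (val A (F x) : ℂ) / 4 * z) :=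
    ((summable_latTerm hA hz).comp_injective hinj).congr fun x => by
      simp only [Function.comp_apply]
      ring_nf
  rw [shadowTheta, show (fun x : Fin n → ℤ => cexp (π * I * (val A ((2 : ℤ) • x + c) : ℂ) / 4 *
    (z : ℂ))) = fun x => cexp (π * I * (val A (F x) : ℂ) / 4 * z) by simp only [hF],
    ← hsum.sum_add_tsum_subtype_compl hfin.toFinset,
    Finset.sum_congr rfl (g := fun _ => cexp (π * I * ((n : ℂ) - 8) / 4 * z)) fun x hx => by
      rw [show val A (F x) = (n : ℤ) - 8 by simpa using hx]
      push_cast
      rfl,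
    Finset.sum_const, ← Nat.card_eq_card_finite_toFinset hfin, nsmul_eq_mul,
    show Nat.card ↑{x | val A (F x) = (n : ℤ) - 8} = shortCount A from hcount, add_mul, mul_assoc,
    ← Complex.exp_add, show π * I * ((n : ℂ) - 8) / 4 * z + -(π * I * n / 4 * z) =
      -(2 * π * I * z) by ring, add_sub_cancel_left, ← tsum_mul_right]
  refine tsum_congr fun x => ?_
  rw [← Complex.exp_add]
  push_cast
  ring_nf

/-- **The relation between two lattices with long shadows.** -/
theorem theta_relation (hA : PosUnimodular A) (hB : PosUnimodular B) (lA : LongShadow A)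
    (lB : LongShadow B) {z : ℂ} (hz : 0 < z.im) :
    (shortCount B : ℂ) * (latTheta A z - latTheta (1 : Matrix (Fin n) (Fin n) ℤ) z) =
      (shortCount A : ℂ) * (latTheta B z - latTheta (1 : Matrix (Fin n) (Fin n) ℤ) z) := by
  obtain ⟨a, ha⟩ : ∃ a : ℂ, a = shortCount B := ⟨_, rfl⟩
  obtain ⟨b, hb⟩ : ∃ b : ℂ, b = shortCount A := ⟨_, rfl⟩
  obtain ⟨f, hf⟩ : ∃ f : ℂ → ℂ, ∀ w, f w = a * (quot A w - 1) - b * (quot B w - 1) :=
    ⟨_, fun _ => rfl⟩
  obtain ⟨cA, hcA⟩ := IndefiniteUnimodular.exists_characteristic hA.1
  obtain ⟨cB, hcB⟩ := IndefiniteUnimodular.exists_characteristic hB.1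
  obtain ⟨LA, hLA⟩ := tendsto_shadow_tail hA lA hcA
  obtain ⟨LB, hLB⟩ := tendsto_shadow_tail hB lB hcB
  have hfd : ∀ w : ℂ, 0 < w.im → DifferentiableAt ℂ f w := fun w hw => by
    rw [show f = fun w => a * (quot A w - 1) - b * (quot B w - 1) from funext hf]
    exact (((CharacteristicVectors.differentiableAt_quot hA hw).sub_const 1).const_mul a).sub
      (((CharacteristicVectors.differentiableAt_quot hB hw).sub_const 1).const_mul b)
  have hl1 : Tendsto (fun w : ℍ => f w) atImInfty (𝓝 0) := by
    have h := (((CharacteristicVectors.tendsto_quot hA).sub_const 1).const_mul a).sub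
      (((CharacteristicVectors.tendsto_quot hB).sub_const 1).const_mul b)
    simpa [hf] using h
  have h2 : (2 : ℂ) ^ n ≠ 0 := pow_ne_zero _ two_ne_zero
  have hden : ∀ w : ℍ,
      shadowTheta (1 : Matrix (Fin n) (Fin n) ℤ) (fun _ => 1) (w : ℂ) ≠ 0 := fun w h => by
    have h1 := CharacteristicVectors.posUnimodular_one (n := n)
    have := CharacteristicVectors.latTheta_shadow h1 CharacteristicVectors.characteristic_one
      w.im_pos
    rw [h, mul_zero] at this
    exact CharacteristicVectors.latTheta_one_ne_zero
      (by simpa using CharacteristicVectors.im_neg_one_div_pos w.im_pos) this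
  have hl3 := ((((hLA.const_mul a).sub (hLB.const_mul b)).div
    (CharacteristicVectors.tendsto_shadow_one n) h2).sub_const (a - b)).congr fun w : ℍ =>
      show _ = f (1 + -1 / (w : ℂ)) by
        have hd := hden w
        rw [hf, CharacteristicVectors.quot_shadow hA hcA w.im_pos,
          CharacteristicVectors.quot_shadow hB hcB w.im_pos, Pi.div_apply, ha, hb]
        field_simp
        ring
  have h0 := CharacteristicVectors.eq_of_thetaGroup hfd
    (fun w => by rw [hf, hf, CharacteristicVectors.quot_two_add,
      CharacteristicVectors.quot_two_add])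
    (fun w hw => by rw [hf, hf, CharacteristicVectors.quot_inversion hA hw,
      CharacteristicVectors.quot_inversion hB hw]) hl1 hl3 hz
  have hne := CharacteristicVectors.latTheta_one_ne_zero (n := n) hz
  rw [hf, quot, quot, ha, hb] at h0
  field_simp at h0
  linear_combination h0

/-- The series of the values at least `k`, divided by `exp (π i k z)`. -/
def highPart (A : Matrix (Fin n) (Fin n) ℤ) (k : ℕ) (z : ℂ) : ℂ :=
  ∑' v : Fin n → ℤ, {v | (k : ℤ) ≤ val A v}.indicator
    (fun v => cexp (π * I * ((val A v : ℂ) - k) * z)) v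

theorem summable_highPart (hA : PosUnimodular A) (k : ℕ) {z : ℂ} (hz : 0 < z.im) :
    Summable ({v | (k : ℤ) ≤ val A v}.indicator
      (fun v => cexp (π * I * ((val A v : ℂ) - k) * z))) :=
  (((summable_latTerm hA hz).mul_left (cexp (-(π * I * k * z)))).congr fun v => by
    rw [← Complex.exp_add]
    ring_nf).indicator _

theorem highPart_succ (hA : PosUnimodular A) (k : ℕ) {z : ℂ} (hz : 0 < z.im) :
    highPart A k z = (levelCount A k : ℂ) + cexp (π * I * z) * highPart A (k + 1) z := by
  have hfin := CharacteristicVectors.finite_val_eq hA (k : ℤ)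
  have e : ∀ v, {v | (k : ℤ) ≤ val A v}.indicator
      (fun v => cexp (π * I * ((val A v : ℂ) - k) * z)) v =
      (if val A v = k then 1 else 0) + cexp (π * I * z) *
        {v | ((k + 1 : ℕ) : ℤ) ≤ val A v}.indicator
          (fun v => cexp (π * I * ((val A v : ℂ) - (k + 1 : ℕ)) * z)) v := fun v => by
    simp only [Set.indicator_apply, Set.mem_ofPred_eq]
    rcases lt_trichotomy (val A v) k with h | h | h
    · rw [if_neg (by omega), if_neg h.ne, if_neg (by omega)]
      simp
    · rw [if_pos (by omega), if_pos h, if_neg (by omega), h]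
      simp
    · rw [if_pos (by omega), if_neg h.ne', if_pos (by omega), zero_add, ← Complex.exp_add]
      push_cast
      ring_nf
  have hsum : Summable fun v => if val A v = k then (1 : ℂ) else 0 :=
    summable_of_ne_finset_zero (s := hfin.toFinset) fun v hv => if_neg (by simpa using hv)
  rw [highPart, tsum_congr e, hsum.tsum_add ((summable_highPart hA (k + 1) hz).mul_left _),
    tsum_mul_left, ← highPart, tsum_eq_sum (s := hfin.toFinset) fun v hv => if_neg
      (by simpa using hv), Finset.sum_congr rfl fun v hv => if_pos (by simpa using hv),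
    Finset.sum_const, nsmul_one, ← Nat.card_eq_card_finite_toFinset hfin]
  rfl

theorem tendsto_highPart (hA : PosUnimodular A) (k : ℕ) :
    Tendsto (fun z : ℍ => highPart A k z) atImInfty (𝓝 (levelCount A k : ℂ)) := by
  have hnn : ∀ v : {v : Fin n → ℤ | (k : ℤ) ≤ val A v}, (0 : ℝ) ≤ (val A v.1 : ℝ) - k := fun v => by
    have : ((k : ℤ) : ℝ) ≤ val A v.1 := Int.cast_le.2 v.2
    push_cast at this
    linarith
  have hs : Summable fun v : {v : Fin n → ℤ | (k : ℤ) ≤ val A v} =>
      Real.exp (-(π * ((val A v.1 : ℝ) - k))) :=
    (((CharacteristicVectors.summable_exp_val hA one_pos).comp_injective (i := Subtype.val)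
      Subtype.val_injective).mul_left (Real.exp (π * k))).congr fun v => by
        simp only [Function.comp_apply, ← Real.exp_add]
        ring_nf
  have h := CharacteristicVectors.tendsto_tsum_exp hnn hs
  rw [Nat.card_congr
    ({ toFun := fun v => ⟨v.1.1, by
        have := v.2
        rw [sub_eq_zero] at this
        exact_mod_cast this⟩
       invFun := fun v => ⟨⟨v.1, le_of_eq v.2.symm⟩, by simp [v.2]⟩
       left_inv := fun _ => rfl
       right_inv := fun _ => rfl } :
      {v : {v : Fin n → ℤ | (k : ℤ) ≤ val A v} // (val A v.1 : ℝ) - k = 0} ≃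
        {v : Fin n → ℤ // val A v = (k : ℤ)})] at h
  refine h.congr fun z => ?_
  rw [highPart, ← tsum_subtype]
  exact tsum_congr fun v => by push_cast; rfl

/-- Relations between theta series pass to the counting numbers. -/
theorem counts_of_theta {C : Matrix (Fin n) (Fin n) ℤ} (hA : PosUnimodular A)
    (hB : PosUnimodular B) (hC : PosUnimodular C) {a b c : ℂ}
    (h : ∀ z : ℂ, 0 < z.im → a * latTheta A z + b * latTheta B z + c * latTheta C z = 0) (k : ℕ) :
    a * levelCount A k + b * levelCount B k + c * levelCount C k = 0 := by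
  suffices hk : ∀ z : ℂ, 0 < z.im →
      a * highPart A k z + b * highPart B k z + c * highPart C k z = 0 from
    tendsto_nhds_unique ((((tendsto_highPart hA k).const_mul a).add
      ((tendsto_highPart hB k).const_mul b)).add ((tendsto_highPart hC k).const_mul c))
      (tendsto_const_nhds.congr fun w => (hk w w.im_pos).symm)
  induction k with
  | zero =>
    intro z hz
    have e : ∀ M : Matrix (Fin n) (Fin n) ℤ, PosUnimodular M → highPart M 0 z = latTheta M z :=
      fun M hM => tsum_congr fun v => by
        rw [Set.indicator_of_mem (by simpa using hM.val_nonneg v)]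
        simp
    rw [e A hA, e B hB, e C hC]
    exact h z hz
  | succ k ih =>
    intro z hz
    have h0 : a * levelCount A k + b * levelCount B k + c * levelCount C k = 0 :=
      tendsto_nhds_unique ((((tendsto_highPart hA k).const_mul a).add
        ((tendsto_highPart hB k).const_mul b)).add ((tendsto_highPart hC k).const_mul c))
        (tendsto_const_nhds.congr fun w => (ih w w.im_pos).symm)
    have h1 := ih z hz
    rw [highPart_succ hA k hz, highPart_succ hB k hz, highPart_succ hC k hz] at h1
    refine (mul_eq_zero.1 ?_).resolve_left (Complex.exp_ne_zero (π * I * z))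
    linear_combination h1 - h0

end FA.LongShadows

end
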