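import Fermat.Agent.LongShadows.Structure

/-!
# Rank twelve

Without vectors of value one there are `24` characteristic vectors of value four, an orthogonal
frame; in its coordinates the lattice is `D₁₂⁺`, the integer points of equal parities and sum
divisible by four, with a quarter of the square sum.
-/

set_option autoImplicit false
set_option linter.unusedSectionVars false

noncomputable section

namespace FA.LongShadows

open Matrix
open IndefiniteUnimodular (val Characteristic Iso EvenForm dsum)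
open CharacteristicVectors (PosUnimodular)

/-- A Gram matrix of `D₁₂⁺`. -/
def d12Gram : Matrix (Fin 12) (Fin 12) ℤ :=
  !![3, 0, 0, 0, 0, 0, 0, 0, 0, 0, 0, 1;
    0, 2, -1, 0, 0, 0, 0, 0, 0, 0, 0, 0;
    0, -1, 2, -1, 0, 0, 0, 0, 0, 0, 0, 0;
    0, 0, -1, 2, -1, 0, 0, 0, 0, 0, 0, 0;
    0, 0, 0, -1, 2, -1, 0, 0, 0, 0, 0, 0;
    0, 0, 0, 0, -1, 2, -1, 0, 0, 0, 0, 0;
    0, 0, 0, 0, 0, -1, 2, -1, 0, 0, 0, 0;
    0, 0, 0, 0, 0, 0, -1, 2, -1, 0, 0, 0;
    0, 0, 0, 0, 0, 0, 0, -1, 2, -1, 0, 0;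
    0, 0, 0, 0, 0, 0, 0, 0, -1, 2, -1, -1;
    0, 0, 0, 0, 0, 0, 0, 0, 0, -1, 2, 0;
    1, 0, 0, 0, 0, 0, 0, 0, 0, -1, 0, 2]

/-- Coordinates for it, twice over. -/
def d12Basis : Matrix (Fin 12) (Fin 12) ℤ :=
  !![1, 0, 0, 0, 0, 0, 0, 0, 0, 0, 0, 0;
    1, 2, 0, 0, 0, 0, 0, 0, 0, 0, 0, 0;
    1, -2, 2, 0, 0, 0, 0, 0, 0, 0, 0, 0;
    1, 0, -2, 2, 0, 0, 0, 0, 0, 0, 0, 0;
    1, 0, 0, -2, 2, 0, 0, 0, 0, 0, 0, 0;
    1, 0, 0, 0, -2, 2, 0, 0, 0, 0, 0, 0;
    1, 0, 0, 0, 0, -2, 2, 0, 0, 0, 0, 0;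
    1, 0, 0, 0, 0, 0, -2, 2, 0, 0, 0, 0;
    1, 0, 0, 0, 0, 0, 0, -2, 2, 0, 0, 0;
    1, 0, 0, 0, 0, 0, 0, 0, -2, 2, 0, 0;
    1, 0, 0, 0, 0, 0, 0, 0, 0, -2, 2, 2;
    1, 0, 0, 0, 0, 0, 0, 0, 0, 0, -2, 2]

theorem d12_identities : d12Gram.transpose = d12Gram ∧
    d12Basisᵀ * d12Basis = (4 : ℤ) • d12Gram ∧ d12Gram * (
  !![4, -2, -4, -6, -8, -10, -12, -14, -16, -18, -9, -11;
    -2, 2, 3, 4, 5, 6, 7, 8, 9, 10, 5, 6;
    -4, 3, 6, 8, 10, 12, 14, 16, 18, 20, 10, 12;
    -6, 4, 8, 12, 15, 18, 21, 24, 27, 30, 15, 18;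
    -8, 5, 10, 15, 20, 24, 28, 32, 36, 40, 20, 24;
    -10, 6, 12, 18, 24, 30, 35, 40, 45, 50, 25, 30;
    -12, 7, 14, 21, 28, 35, 42, 48, 54, 60, 30, 36;
    -14, 8, 16, 24, 32, 40, 48, 56, 63, 70, 35, 42;
    -16, 9, 18, 27, 36, 45, 54, 63, 72, 80, 40, 48;
    -18, 10, 20, 30, 40, 50, 60, 70, 80, 90, 45, 54;
    -9, 5, 10, 15, 20, 25, 30, 35, 40, 45, 23, 27;
    -11, 6, 12, 18, 24, 30, 36, 42, 48, 54, 27, 33] : Matrix (Fin 12) (Fin 12) ℤ) = 1 := by
  unfold d12Gram d12Basis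
  refine ⟨?_, ?_, ?_⟩ <;> decide +kernel

theorem val_of_coordinates {A W : Matrix (Fin 12) (Fin 12) ℤ} (h : Wᵀ * W = (4 : ℤ) • A)
    (v : Fin 12 → ℤ) : ∑ i, (W *ᵥ v) i ^ 2 = 4 * val A v := by
  rw [← CharacteristicVectors.val_one, ← IndefiniteUnimodular.val_congr, Matrix.mul_one, h,
    val, val, Matrix.smul_mulVec, dotProduct_smul, smul_eq_mul]

theorem posUnimodular_d12 : PosUnimodular d12Gram := by
  obtain ⟨hs, hB, hI⟩ := d12_identities
  refine ⟨⟨hs, isUnit_det_of_right_inverse hI⟩, fun x hx => ?_⟩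
  have hdet : d12Basis.det ≠ 0 := fun h => by
    have e := congrArg Matrix.det hB
    rw [det_mul, det_transpose, h, mul_zero, det_smul] at e
    exact mul_ne_zero (pow_ne_zero _ (by norm_num))
      (isUnit_det_of_right_inverse hI).ne_zero e.symm
  obtain ⟨i, hi⟩ := Function.ne_iff.1 fun e => hx (mulVec_injective_of_det_ne_zero hdet
    (e.trans (Matrix.mulVec_zero d12Basis).symm))
  have hsum : 0 < ∑ i, (d12Basis *ᵥ x) i ^ 2 := Finset.sum_pos' (fun j _ => sq_nonneg _)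
    ⟨i, Finset.mem_univ i, pow_two_pos_of_ne_zero hi⟩
  rw [val_of_coordinates hB] at hsum
  linarith

theorem levelCount_d12 : levelCount d12Gram 1 = 0 := by
  rw [levelCount, Nat.card_eq_zero]
  refine .inl ⟨fun ⟨v, hv⟩ => ?_⟩
  have h4 := val_of_coordinates d12_identities.2.1 v
  rw [hv] at h4
  have hsum : ∑ i, (d12Basis *ᵥ v) i = 12 * v 0 + 4 * v 11 := by
    simp [d12Basis, Matrix.mulVec, dotProduct, Fin.sum_univ_succ]
    ring
  have hpar : ∀ i, 2 ∣ (d12Basis *ᵥ v) i - v 0 := fun i => by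
    fin_cases i <;>
      (simp [d12Basis, Matrix.mulVec, dotProduct, Fin.sum_univ_succ]; try omega)
  by_cases h0 : 2 ∣ v 0
  · have he : ∀ i, 2 ∣ (d12Basis *ᵥ v) i := fun i => by have := hpar i; omega
    choose b hb using he
    simp only [hb, mul_pow, ← Finset.mul_sum] at h4 hsum
    have h1 : ∑ i, b i ^ 2 = 1 := by linarith
    have h2 : ((∑ i, b i : ℤ) : ZMod 2) = ((∑ i, b i ^ 2 : ℤ) : ZMod 2) := by
      push_cast
      refine Finset.sum_congr rfl fun i _ => ?_
      generalize (b i : ZMod 2) = y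
      revert y
      decide
    rw [h1, ← sub_eq_zero, ← Int.cast_sub, ZMod.intCast_zmod_eq_zero_iff_dvd] at h2
    omega
  · have hge : ∀ i, 1 ≤ (d12Basis *ᵥ v) i ^ 2 := fun i => by
      have := hpar i
      have hne : (d12Basis *ᵥ v) i ≠ 0 := by omega
      nlinarith [sq_pos_of_ne_zero hne]
    have := Finset.sum_le_sum (s := Finset.univ) fun i _ => hge i
    simp at this
    omega

/-- Coordinates making a lattice `D₁₂⁺`. -/
theorem exists_coordinates {A : Matrix (Fin 12) (Fin 12) ℤ} (hA : PosUnimodular A)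
    (h1 : levelCount A 1 = 0) :
    ∃ W : Matrix (Fin 12) (Fin 12) ℤ, Wᵀ * W = (4 : ℤ) • A ∧
      ∀ a : Fin 12 → ℤ, (∃ v, W *ᵥ v = a) ↔ (∀ i, 2 ∣ a i - a 0) ∧ 4 ∣ ∑ i, a i := by
  classical
  have hl := longShadow_of_le_fifteen (by norm_num) hA
  obtain ⟨hN, -, -⟩ := reduced_counts (by norm_num) hA hl h1
  have hno : ∀ v, val A v ≠ 1 := fun v hv => by
    have := finite_level hA 1
    rcases Nat.card_eq_zero.1 h1 with h | h
    · exact h.false ⟨v, hv⟩
    · exact h.false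
  obtain ⟨S, hS⟩ : ∃ S : Finset (Fin 12 → ℤ), ∀ c, c ∈ S ↔ Characteristic A c ∧ val A c = 4 :=
    ⟨((CharacteristicVectors.finite_val_eq hA 4).subset
      (fun c (hc : c ∈ {c | Characteristic A c ∧ val A c = 4}) => hc.2)).toFinset, fun c => by simp⟩
  have hcard : S.card = 24 := by
    rw [shortCount, charCount, Nat.card_congr (Equiv.subtypeEquivRight fun c =>
      show (Characteristic A c ∧ val A c = ((12 : ℕ) : ℤ) - 8) ↔ c ∈ S by rw [hS]; norm_num),
      Nat.card_eq_fintype_card, Fintype.card_coe] at hN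
    norm_num at hN
    omega
  have hneg : ∀ c ∈ S, -c ∈ S := fun c hc => by
    rw [hS] at hc ⊢
    refine ⟨fun x => ?_, by simpa [val, Matrix.mulVec_neg] using hc.2⟩
    rw [neg_dotProduct, show -(c ⬝ᵥ (A *ᵥ x)) - val A x =
      c ⬝ᵥ (A *ᵥ x) - val A x - 2 * (c ⬝ᵥ (A *ᵥ x)) by ring]
    exact dvd_sub (hc.1 x) (dvd_mul_right 2 _)
  have hhalf : ∀ c ∈ S, ∀ c' ∈ S, ∃ t, c - c' = (2 : ℤ) • t := fun c hc c' hc' => by
    obtain ⟨t, c₀, h0, rfl⟩ := CharacteristicVectors.mulVec_diag_congr hA.1 ((hS c).1 hc).1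
    obtain ⟨t', c₁, h1', rfl⟩ := CharacteristicVectors.mulVec_diag_congr hA.1 ((hS c').1 hc').1
    obtain rfl : c₀ = c₁ := mulVec_injective_of_det_ne_zero hA.1.2.ne_zero (h0.trans h1'.symm)
    exact ⟨t - t', by rw [smul_sub]; abel⟩
  have hle : ∀ c ∈ S, ∀ c' ∈ S, c ≠ c' → c ⬝ᵥ (A *ᵥ c') ≤ 0 := fun c hc c' hc' hne => by
    obtain ⟨t, ht⟩ := hhalf c hc c' hc'
    have hv : val A (c - c') = 8 - 2 * (c ⬝ᵥ (A *ᵥ c')) := by
      rw [sub_eq_add_neg, IndefiniteUnimodular.val_add hA.1.1, show val A (-c') = val A c' by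
        simp [val, Matrix.mulVec_neg], ((hS c).1 hc).2, ((hS c').1 hc').2, Matrix.mulVec_neg,
        dotProduct_neg]
      ring
    rw [ht, IndefiniteUnimodular.val_smul] at hv
    have ht0 : t ≠ 0 := fun e => hne (sub_eq_zero.1 (by rw [ht, e, smul_zero]))
    have := hA.2 t ht0
    have := hno t
    omega
  have horth : ∀ c ∈ S, ∀ c' ∈ S, c ≠ c' → c ≠ -c' → c ⬝ᵥ (A *ᵥ c') = 0 :=
    fun c hc c' hc' h h' => by
      refine le_antisymm (hle c hc c' hc' h) ?_
      have := hle c hc (-c') (hneg c' hc') h'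
      rw [Matrix.mulVec_neg, dotProduct_neg] at this
      linarith
  obtain ⟨T, hT, hmax⟩ := (S.powerset.filter fun T : Finset (Fin 12 → ℤ) =>
    ∀ u ∈ T, ∀ v ∈ T, u ≠ v → u ⬝ᵥ (A *ᵥ v) = 0).exists_max_image Finset.card ⟨∅, by simp⟩
  rw [Finset.mem_filter, Finset.mem_powerset] at hT
  have hcover : S ⊆ T ∪ T.image Neg.neg := fun u hu => by
    by_contra hnot
    simp only [Finset.mem_union, Finset.mem_image, not_or, not_exists, not_and] at hnot
    have hu0 : ∀ t ∈ T, u ⬝ᵥ (A *ᵥ t) = 0 := fun t ht =>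
      horth u hu t (hT.1 ht) (fun e => hnot.1 (e ▸ ht)) fun e => hnot.2 t ht e.symm
    have hins : insert u T ∈ S.powerset.filter fun T : Finset (Fin 12 → ℤ) =>
        ∀ u ∈ T, ∀ v ∈ T, u ≠ v → u ⬝ᵥ (A *ᵥ v) = 0 := by
      rw [Finset.mem_filter, Finset.mem_powerset]
      refine ⟨Finset.insert_subset hu hT.1, fun x hx y hy hxy => ?_⟩
      rcases Finset.mem_insert.1 hx with rfl | hx' <;> rcases Finset.mem_insert.1 hy with rfl | hy'
      · exact absurd rfl hxy
      · exact hu0 y hy'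
      · rw [IndefiniteUnimodular.dot_swap hA.1.1]
        exact hu0 x hx'
      · exact hT.2 x hx' y hy' hxy
    have := hmax _ hins
    rw [Finset.card_insert_of_notMem hnot.1] at this
    omega
  have hT12 : Fintype.card (Fin 12) ≤ Fintype.card T := by
    have := (Finset.card_le_card hcover).trans ((Finset.card_union_le _ _).trans
      (add_le_add le_rfl Finset.card_image_le))
    rw [Fintype.card_fin, Fintype.card_coe]
    omega
  obtain ⟨φ⟩ := Function.Embedding.nonempty_of_card_le hT12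
  obtain ⟨M, hM⟩ : ∃ M : Matrix (Fin 12) (Fin 12) ℤ, M = Matrix.of fun i j => (φ j).1 i :=
    ⟨_, rfl⟩
  have hMAM : Mᵀ * A * M = (4 : ℤ) • 1 := by
    ext i j
    rw [show (Mᵀ * A * M) i j = (φ i).1 ⬝ᵥ (A *ᵥ (φ j).1) by rw [Matrix.mul_assoc, hM]; rfl,
      Matrix.smul_apply, Matrix.one_apply]
    split_ifs with hij
    · rw [smul_eq_mul, mul_one, hij]
      exact ((hS _).1 (hT.1 (φ j).2)).2
    · rw [smul_zero]
      exact hT.2 _ (φ i).2 _ (φ j).2 fun e => hij (φ.injective (Subtype.ext e))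
  obtain ⟨W, hW⟩ : ∃ W, W = Mᵀ * A := ⟨_, rfl⟩
  have hMdet : M.det ≠ 0 := fun h => by
    have e := congrArg Matrix.det hMAM
    rw [det_mul, det_mul, h, mul_zero, det_smul, det_one, mul_one] at e
    norm_num at e
  have hMW : M * W = (4 : ℤ) • 1 := by
    have hz : (M * W - (4 : ℤ) • 1) * M = 0 := by
      rw [hW, Matrix.sub_mul, Matrix.smul_mul, Matrix.one_mul, Matrix.mul_assoc M, hMAM,
        Matrix.mul_smul, Matrix.mul_one, sub_self]
    have hz' := congrArg (fun X => X * M.adjugate) hz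
    simp only [Matrix.mul_assoc, Matrix.mul_adjugate, Matrix.zero_mul, Matrix.mul_smul,
      Matrix.mul_one] at hz'
    exact sub_eq_zero.1 ((smul_eq_zero.1 hz').resolve_left hMdet)
  have hWW : Wᵀ * W = (4 : ℤ) • A := by
    have hWt : Wᵀ = A * M := by rw [hW, Matrix.transpose_mul, transpose_transpose, hA.1.1.eq]
    rw [hWt, Matrix.mul_assoc, hMW, Matrix.mul_smul, Matrix.mul_one]
  have hpar : ∀ v i, 2 ∣ (W *ᵥ v) i - val A v := fun v i => by
    rw [show (W *ᵥ v) i = (φ i).1 ⬝ᵥ (A *ᵥ v) by rw [hW, ← Matrix.mulVec_mulVec, hM]; rfl]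
    exact ((hS _).1 (hT.1 (φ i).2)).1 v
  have heven : ∀ b : Fin 12 → ℤ, 2 ∣ ∑ i, b i → ∃ v, W *ᵥ v = (2 : ℤ) • b := fun b hb => by
    have hpair : ∀ i j, ∃ v, W *ᵥ v = (2 : ℤ) • (Pi.single i 1 - Pi.single j 1) := fun i j => by
      obtain ⟨t, ht⟩ := hhalf _ (hT.1 (φ i).2) _ (hT.1 (φ j).2)
      refine ⟨t, smul_right_injective _ (show (2 : ℤ) ≠ 0 by norm_num) ?_⟩
      have hcol : ∀ k, W *ᵥ (φ k).1 = (4 : ℤ) • Pi.single k 1 := fun k => by
        rw [show (φ k).1 = M *ᵥ Pi.single k 1 by rw [hM, mulVec_single_one]; rfl,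
          Matrix.mulVec_mulVec, hW, hMAM, Matrix.smul_mulVec, Matrix.one_mulVec]
      simp only [← Matrix.mulVec_smul, ← ht, Matrix.mulVec_sub, hcol]
      simp only [smul_sub, smul_smul]
      norm_num
    have hfour : ∃ v, W *ᵥ v = (2 : ℤ) • ((2 : ℤ) • Pi.single (0 : Fin 12) 1) := by
      refine ⟨(φ 0).1, ?_⟩
      rw [show (φ 0).1 = M *ᵥ Pi.single 0 1 by rw [hM, mulVec_single_one]; rfl,
        Matrix.mulVec_mulVec, hW, hMAM, Matrix.smul_mulVec, Matrix.one_mulVec, smul_smul]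
      norm_num
    choose v hv using fun i => hpair i 0
    obtain ⟨u, hu⟩ := hfour
    obtain ⟨s, hs⟩ := hb
    refine ⟨(∑ i, b i • v i) + s • u, ?_⟩
    rw [Matrix.mulVec_add, Matrix.mulVec_sum, Matrix.mulVec_smul, hu]
    simp only [Matrix.mulVec_smul, hv]
    funext k
    simp only [Pi.add_apply, Finset.sum_apply, Pi.smul_apply, Pi.sub_apply, smul_eq_mul, mul_sub,
      Finset.sum_sub_distrib, ← Finset.sum_mul]
    rw [Finset.sum_eq_single k (fun i _ hi => by simp [hi.symm])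
      (fun h => absurd (Finset.mem_univ k) h)]
    simp only [Pi.single_eq_same, mul_one]
    rw [hs]
    ring
  obtain ⟨v₀, hv₀⟩ : ∃ v, ¬ 2 ∣ val A v := by
    by_contra hne
    push Not at hne
    obtain ⟨t, ht⟩ := IndefiniteUnimodular.signature_of_even hA.1
      fun x => even_iff_two_dvd.2 (hne x)
    rw [hA.posIndex_eq, hA.negIndex_eq, Fintype.card_fin] at ht
    omega
  have hodd : ∀ i, ¬ 2 ∣ (W *ᵥ v₀) i := fun i => by have := hpar v₀ i; omega
  -- change one sign if need be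
  obtain ⟨d, hd, hd4⟩ : ∃ d : Fin 12 → ℤ,
      (∀ i, d i = 1 ∨ d i = -1) ∧ 4 ∣ ∑ i, d i * (W *ᵥ v₀) i := by
    obtain ⟨a, ha⟩ : ∃ a, a = W *ᵥ v₀ := ⟨_, rfl⟩
    have h2 : 2 ∣ ∑ i, a i := by
      rw [show (∑ i, a i) = (∑ i, (a i - 1)) + 12 by simp [Finset.sum_sub_distrib]]
      refine dvd_add (Finset.dvd_sum fun i _ => ?_) (by norm_num)
      have := hodd i
      rw [← ha] at this
      omega
    by_cases h4 : 4 ∣ ∑ i, a i
    · exact ⟨fun _ => 1, fun _ => .inl rfl, by simpa [← ha] using h4⟩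
    · refine ⟨fun i => if i = 0 then -1 else 1, fun i => by dsimp only; split_ifs <;> simp, ?_⟩
      have e : ∑ i, (if i = 0 then -1 else 1) * (W *ᵥ v₀) i = (∑ i, a i) - 2 * a 0 := by
        rw [← ha, ← Finset.add_sum_erase _ _ (Finset.mem_univ (0 : Fin 12)),
          ← Finset.add_sum_erase _ (fun i => a i) (Finset.mem_univ (0 : Fin 12)), if_pos rfl,
          Finset.sum_congr rfl fun i hi => by rw [if_neg (Finset.ne_of_mem_erase hi), one_mul]]
        ring
      rw [e]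
      have := hodd 0
      rw [← ha] at this
      omega
  have hdd : ∀ i, d i * d i = 1 := fun i => by rcases hd i with e | e <;> rw [e] <;> norm_num
  refine ⟨diagonal d * W, ?_, fun a => ⟨?_, ?_⟩⟩
  · rw [Matrix.transpose_mul, diagonal_transpose, Matrix.mul_assoc, ← Matrix.mul_assoc (diagonal d),
      diagonal_mul_diagonal]
    simp only [hdd, diagonal_one, Matrix.one_mul, hWW]
  all_goals
    have happ : ∀ v i, ((diagonal d * W) *ᵥ v) i = d i * (W *ᵥ v) i := fun v i => by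
      rw [← Matrix.mulVec_mulVec, mulVec_diagonal]
    have hpar' : ∀ v i, 2 ∣ ((diagonal d * W) *ᵥ v) i - val A v := fun v i => by
      have := hpar v i
      rw [happ]
      rcases hd i with e | e <;> rw [e] <;> omega
    have heven' : ∀ b : Fin 12 → ℤ, 2 ∣ ∑ i, b i →
        ∃ v, (diagonal d * W) *ᵥ v = (2 : ℤ) • b := fun b hb => by
      obtain ⟨v, hv⟩ := heven (fun i => d i * b i) (by
        rw [show ∑ i, d i * b i = (∑ i, b i) + ∑ i, (d i - 1) * b i by
          rw [← Finset.sum_add_distrib]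
          exact Finset.sum_congr rfl fun i _ => by ring]
        refine dvd_add hb (Finset.dvd_sum fun i _ => Dvd.dvd.mul_right ?_ _)
        rcases hd i with e | e <;> rw [e] <;> norm_num)
      refine ⟨v, funext fun i => ?_⟩
      rw [happ, hv]
      simp only [Pi.smul_apply, smul_eq_mul]
      linear_combination 2 * b i * hdd i
  · rintro ⟨v, rfl⟩
    refine ⟨fun i => ?_, ?_⟩
    · have := hpar' v i
      have := hpar' v 0
      omega
    have key : ∀ w, 2 ∣ val A w → 4 ∣ ∑ i, ((diagonal d * W) *ᵥ w) i := fun w hw => by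
      have he : ∀ i, 2 ∣ ((diagonal d * W) *ᵥ w) i := fun i => by
        have := hpar' w i
        omega
      choose b hb using he
      have h4 := val_of_coordinates (show (diagonal d * W)ᵀ * (diagonal d * W) = (4 : ℤ) • A by
        rw [Matrix.transpose_mul, diagonal_transpose, Matrix.mul_assoc,
          ← Matrix.mul_assoc (diagonal d), diagonal_mul_diagonal]
        simp only [hdd, diagonal_one, Matrix.one_mul, hWW]) w
      simp only [hb, mul_pow, ← Finset.mul_sum] at h4 ⊢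
      have h2 : ((∑ i, b i : ℤ) : ZMod 2) = ((∑ i, b i ^ 2 : ℤ) : ZMod 2) := by
        push_cast
        refine Finset.sum_congr rfl fun i _ => ?_
        generalize (b i : ZMod 2) = y
        revert y
        decide
      rw [← sub_eq_zero, ← Int.cast_sub, ZMod.intCast_zmod_eq_zero_iff_dvd] at h2
      omega
    by_cases hv : 2 ∣ val A v
    · exact key v hv
    · have h := key (v - v₀) (by
        have h1 := hpar' (v - v₀) 0
        have h2 := hpar' v 0
        have h3 := hpar' v₀ 0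
        rw [Matrix.mulVec_sub, Pi.sub_apply] at h1
        omega)
      simp only [Matrix.mulVec_sub, Pi.sub_apply, Finset.sum_sub_distrib] at h
      have h0 : 4 ∣ ∑ i, ((diagonal d * W) *ᵥ v₀) i := by simpa only [happ] using hd4
      simpa using dvd_add h h0
  · rintro ⟨hpa, hsum⟩
    by_cases h0 : 2 ∣ a 0
    · have he : ∀ i, 2 ∣ a i := fun i => by have := hpa i; omega
      choose b hb using he
      obtain ⟨v, hv⟩ := heven' b (by
        simp only [hb, ← Finset.mul_sum] at hsum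
        omega)
      exact ⟨v, hv.trans (funext fun i => by simp [hb i])⟩
    · have he : ∀ i, 2 ∣ a i - ((diagonal d * W) *ᵥ v₀) i := fun i => by
        have := hpa i
        have := hpar' v₀ i
        omega
      choose b hb using he
      obtain ⟨v, hv⟩ := heven' b (by
        have h0 : 4 ∣ ∑ i, ((diagonal d * W) *ᵥ v₀) i := by simpa only [happ] using hd4
        have h := dvd_sub hsum h0
        rw [← Finset.sum_sub_distrib] at h
        simp only [hb, ← Finset.mul_sum] at h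
        omega)
      refine ⟨v + v₀, funext fun i => ?_⟩
      rw [Matrix.mulVec_add, hv, Pi.add_apply, Pi.smul_apply, smul_eq_mul]
      linarith [hb i]

/-- **Uniqueness in rank twelve.** -/
theorem iso_of_reduced_twelve {A B : Matrix (Fin 12) (Fin 12) ℤ} (hA : PosUnimodular A)
    (hB : PosUnimodular B) (hA1 : levelCount A 1 = 0) (hB1 : levelCount B 1 = 0) : Iso A B := by
  obtain ⟨W, hW, hrW⟩ := exists_coordinates hA hA1
  obtain ⟨V, hV, hrV⟩ := exists_coordinates hB hB1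
  choose v hv using fun j => (hrW (V *ᵥ Pi.single j 1)).2 ((hrV _).1 ⟨_, rfl⟩)
  obtain ⟨P, hP⟩ : ∃ P : Matrix (Fin 12) (Fin 12) ℤ, P = Matrix.of fun i j => v j i := ⟨_, rfl⟩
  have hWP : W * P = V := by
    ext i j
    have e := congrFun (hv j) i
    rw [mulVec_single_one] at e
    rw [hP]
    exact e
  have hPAP : Pᵀ * A * P = B := by
    refine smul_right_injective (Matrix (Fin 12) (Fin 12) ℤ) (show (4 : ℤ) ≠ 0 by norm_num) ?_
    show (4 : ℤ) • (Pᵀ * A * P) = (4 : ℤ) • B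
    rw [← hV, ← Matrix.smul_mul, ← Matrix.mul_smul, ← hW, ← hWP, Matrix.transpose_mul]
    simp only [Matrix.mul_assoc]
  refine IndefiniteUnimodular.iso_of_isUnit_det ?_ hPAP.symm
  have := hB.1.2
  rw [← hPAP, det_mul, IsUnit.mul_iff] at this
  exact this.2

theorem rank_twelve {A : Matrix (Fin 12) (Fin 12) ℤ} (hA : PosUnimodular A) :
    Iso A (1 : Matrix (Fin 12) (Fin 12) ℤ) ∨ Iso A (model 4) ∨ Iso A d12Gram := by
  obtain ⟨k, r, L₀, hkr, hL, hLl, h1, hiso⟩ :=
    exists_reduced hA (longShadow_of_le_fifteen (by norm_num) hA)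
  rcases reduced_rank hL h1 with rfl | h8
  · obtain rfl : k = 12 := by omega
    have e : L₀ = 1 := by ext i; exact i.elim0
    exact .inl (hiso.trans (e ▸ iso_one_add 12 0))
  · obtain ⟨a, b, c⟩ := rank_not_nine_ten_eleven hL hLl h1
    rcases (show r = 8 ∨ r = 12 by omega) with rfl | rfl
    · obtain rfl : k = 4 := by omega
      refine .inr (.inl (hiso.trans ((IndefiniteUnimodular.iso_dsum_comm _ _).trans
        ((?_ : Iso L₀ FA.Summary.e8Gram).dsum (Iso.refl _)))))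
      rcases CharacteristicVectors.rank_eight hL with h | h
      · rw [levelCount_congr h, (levelCount_one 8).1] at h1
        omega
      · exact h
    · obtain rfl : k = 0 := by omega
      exact .inr (.inr (iso_of_reduced_twelve hA posUnimodular_d12 (by
        rw [levelCount_congr hiso, levelCount_dsum_one CharacteristicVectors.posUnimodular_one hL,
          (levelCount_one 0).1, h1]) levelCount_d12))

theorem rank_twelve_distinct :
    ¬ Iso (1 : Matrix (Fin 12) (Fin 12) ℤ) (model 4) ∧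
      ¬ Iso (1 : Matrix (Fin 12) (Fin 12) ℤ) d12Gram ∧ ¬ Iso (model 4) d12Gram := by
  refine ⟨fun h => ?_, fun h => ?_, fun h => ?_⟩
  all_goals
    have e := levelCount_congr h 1
    simp [(levelCount_one 12).1, (levelCount_model 4).1, levelCount_d12] at e

end FA.LongShadows

end
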